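import Fermat.Agent.ErdosWintner.Approx

/-!
# Additive functions and their characters `n ↦ e ^ (i t g n)`
-/

set_option autoImplicit false

noncomputable section

namespace FA.ErdosWintner

open Finset Filter Topology
open FA.Delange (primesIoc mem_primesIoc sqSum sum_primesIoc_eq_sub)
open FA.ErdosKac (primesUpTo mem_primesUpTo)

/-- `g (m n) = g m + g n` for coprime `m`, `n`. -/
def CoprimeAdditive (g : ℕ → ℝ) : Prop := ∀ m n : ℕ, m.Coprime n → g (m * n) = g m + g n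

/-- `n ↦ e ^ (i t g n)`. -/
def chr (g : ℕ → ℝ) (t : ℝ) (n : ℕ) : ℂ := unitExp (t * g n)

/-- `min (1, g p ²) / p`. -/
def weight (g : ℕ → ℝ) (p : ℕ) : ℝ := min 1 (g p ^ 2) / p

/-- `∑_{p ≤ N, |g p| ≤ 1} g p / p`. -/
def firstSum (g : ℕ → ℝ) (N : ℕ) : ℝ :=
  ∑ p ∈ primesUpTo N, if |g p| ≤ 1 then g p / (p : ℝ) else 0

variable {g : ℕ → ℝ}

theorem CoprimeAdditive.apply_one (hg : CoprimeAdditive g) : g 1 = 0 := by
  have := hg 1 1 (Nat.coprime_one_left 1)
  rw [mul_one] at this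
  linarith

theorem chr_one (hg : CoprimeAdditive g) (t : ℝ) : chr g t 1 = 1 := by
  rw [chr, hg.apply_one, mul_zero, unitExp_zero]

theorem chr_mul (hg : CoprimeAdditive g) (t : ℝ) (m n : ℕ) (h : m.Coprime n) :
    chr g t (m * n) = chr g t m * chr g t n := by
  rw [chr, chr, chr, hg m n h, mul_add, unitExp_add]

theorem norm_chr_le (g : ℕ → ℝ) (t : ℝ) (n : ℕ) : ‖chr g t n‖ ≤ 1 := (norm_unitExp _).le

theorem weight_nonneg (g : ℕ → ℝ) (p : ℕ) : 0 ≤ weight g p :=
  div_nonneg (le_min zero_le_one (sq_nonneg _)) (Nat.cast_nonneg p)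

theorem sqSum_chr_le (g : ℕ → ℝ) {t T : ℝ} (ht : |t| ≤ T) (y z : ℕ) :
    sqSum (chr g t) y z ≤ 4 * (1 + T ^ 2) * ∑ p ∈ primesIoc y z, weight g p := by
  rw [sqSum, mul_sum]
  refine sum_le_sum fun p _ => ?_
  rw [weight, ← mul_div_assoc]
  refine div_le_div_of_nonneg_right ((sq_norm_unitExp_sub_one_le _).trans ?_) (Nat.cast_nonneg p)
  rw [mul_assoc]
  refine mul_le_mul_of_nonneg_left ?_ (by norm_num)
  have htT : t ^ 2 ≤ T ^ 2 := sq_le_sq' (abs_le.1 ht).1 (abs_le.1 ht).2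
  rcases le_total 1 (g p ^ 2) with h | h
  · rw [min_eq_left h]
    exact (min_le_left _ _).trans (by nlinarith [sq_nonneg T])
  · rw [min_eq_right h]
    refine (min_le_right _ _).trans ?_
    rw [mul_pow]
    nlinarith [sq_nonneg (g p)]

/-- The drift is `i t` times a difference of partial sums of `∑ g p / p`, up to the weights. -/
theorem norm_drift_chr_sub_le (g : ℕ → ℝ) (t : ℝ) {y R : ℕ} (h : y ≤ R) :
    ‖drift (chr g t) y R - ((t * (firstSum g R - firstSum g y) : ℝ) : ℂ) * Complex.I‖ ≤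
      (3 * t ^ 2 + 2) * ∑ p ∈ primesIoc y R, weight g p := by
  rw [firstSum, firstSum, ← sum_primesIoc_eq_sub _ h, mul_sum, Complex.ofReal_sum, sum_mul, drift,
    ← sum_sub_distrib, mul_sum]
  refine (norm_sum_le _ _).trans (sum_le_sum fun p hp => ?_)
  have hp0 : (0 : ℝ) < p := Nat.cast_pos.2 (mem_primesIoc.1 hp).1.pos
  rw [weight]
  split_ifs with hs
  · have e : (chr g t p - 1) / (p : ℂ) - ((t * (g p / p) : ℝ) : ℂ) * Complex.I =
        (unitExp (t * g p) - 1 - ((t * g p : ℝ) : ℂ) * Complex.I) / (p : ℂ) := by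
      rw [chr]
      push_cast
      ring
    rw [e, norm_div, Complex.norm_natCast, ← mul_div_assoc]
    refine div_le_div_of_nonneg_right ((norm_unitExp_sub_one_sub_le _).trans ?_) hp0.le
    rw [min_eq_right ((sq_le_one_iff_abs_le_one _).2 hs), mul_pow]
    nlinarith [sq_nonneg (g p)]
  · rw [mul_zero, Complex.ofReal_zero, zero_mul, sub_zero, norm_div, Complex.norm_natCast,
      ← mul_div_assoc, min_eq_left ((one_lt_sq_iff_one_lt_abs _).2 (not_le.1 hs)).le]
    refine div_le_div_of_nonneg_right ?_ hp0.le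
    have := norm_sub_le (chr g t p) 1
    rw [norm_one] at this
    nlinarith [norm_chr_le g t p, sq_nonneg t]

/-- The first and third series converge iff `∑ min (1, g p ²) / p` does. -/
theorem summable_weight_iff (g : ℕ → ℝ) :
    (Summable fun p : Nat.Primes => weight g p) ↔
      (Summable fun p : Nat.Primes => if 1 < |g p| then 1 / ((p : ℕ) : ℝ) else 0) ∧
        Summable fun p : Nat.Primes => if |g p| ≤ 1 then g p ^ 2 / ((p : ℕ) : ℝ) else 0 := by
  have key : ∀ p : ℕ, weight g p =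
      (if 1 < |g p| then 1 / (p : ℝ) else 0) + if |g p| ≤ 1 then g p ^ 2 / (p : ℝ) else 0 := by
    intro p
    rw [weight]
    rcases le_or_gt |g p| 1 with h | h
    · rw [if_pos h, if_neg (not_lt.2 h), zero_add, min_eq_right ((sq_le_one_iff_abs_le_one _).2 h)]
    · rw [if_pos h, if_neg (not_le.2 h), add_zero,
        min_eq_left ((one_lt_sq_iff_one_lt_abs _).2 h).le]
  refine ⟨fun hw => ⟨?_, ?_⟩, fun h => (h.1.add h.2).congr fun p => (key p).symm⟩
  · refine hw.of_nonneg_of_le (fun p => by split_ifs <;> positivity) fun p => ?_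
    rw [key]
    exact le_add_of_nonneg_right (by split_ifs <;> positivity)
  · refine hw.of_nonneg_of_le (fun p => by split_ifs <;> positivity) fun p => ?_
    rw [key]
    exact le_add_of_nonneg_left (by split_ifs <;> positivity)

theorem eventually_small (hw : Summable fun p : Nat.Primes => weight g p) {ρ : ℝ} (hρ : 0 < ρ) :
    ∀ᶠ y : ℕ in atTop, (∀ z, ∑ p ∈ primesIoc y z, weight g p ≤ ρ) ∧
      ∀ z, ∑ p ∈ primesIoc y z, ((p : ℝ) ^ 2)⁻¹ ≤ ρ :=
  (tail_le (weight_nonneg g) hw hρ).and (tail_sq_le hρ)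

theorem norm_partialProduct_le {f : ℕ → ℂ} (h1 : f 1 = 1) (hf : ∀ n, ‖f n‖ ≤ 1) (y : ℕ) :
    ‖FA.Delange.partialProduct f y‖ ≤ 1 := by
  refine le_of_tendsto (FA.Delange.tendsto_mean_trunc h1 hf y).norm
    (Eventually.of_forall fun N => ?_)
  rw [norm_div, Complex.norm_natCast]
  refine div_le_one_of_le₀ ((norm_sum_le _ _).trans ((sum_le_card_nsmul _ _ 1 fun n _ =>
    FA.Delange.norm_trunc_le hf y n).trans_eq ?_)) (Nat.cast_nonneg N)
  simp

/-- The approximation for characters, uniform for bounded `t`. -/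
theorem exists_approx (hg : CoprimeAdditive g) (hw : Summable fun p : Nat.Primes => weight g p)
    (T : ℝ) {η : ℝ} (hη : 0 < η) :
    ∃ y₀, ∀ y ≥ y₀, ∀ t : ℝ, |t| ≤ T →
      (∀ z, (3 * t ^ 2 + 2) * ∑ p ∈ primesIoc y z, weight g p ≤ η) ∧
      (∀ᶠ x : ℕ in atTop, ‖(∑ n ∈ Icc 1 x, chr g t n) / x -
        FA.Delange.partialProduct (chr g t) y *
          Complex.exp (drift (chr g t) y (Nat.sqrt x))‖ ≤ η) ∧
      (∀ᶠ N : ℕ in atTop, ∀ M, N ≤ M → M ≤ 2 * N →
        ‖drift (chr g t) y (Nat.sqrt M) - drift (chr g t) y (Nat.sqrt N)‖ ≤ η) := by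
  obtain ⟨ρ, hρ, H⟩ := approximation hη
  obtain ⟨ρ', hρ'def⟩ : ∃ r, r = min ρ (min (ρ / (4 * (1 + T ^ 2))) (η / (3 * T ^ 2 + 2))) :=
    ⟨_, rfl⟩
  have hρ' : 0 < ρ' := by rw [hρ'def]; positivity
  obtain ⟨y₀, hy₀⟩ := eventually_atTop.1 (eventually_small hw hρ')
  refine ⟨y₀, fun y hy t ht => ⟨fun z => ?_, ?_⟩⟩
  · have htT : t ^ 2 ≤ T ^ 2 := sq_le_sq' (abs_le.1 ht).1 (abs_le.1 ht).2
    refine (mul_le_mul (show 3 * t ^ 2 + 2 ≤ 3 * T ^ 2 + 2 by linarith) ((hy₀ y hy).1 z)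
      (sum_nonneg fun p _ => weight_nonneg g p) (by positivity)).trans ?_
    rw [← le_div_iff₀' (by positivity), hρ'def]
    exact (min_le_right _ _).trans (min_le_right _ _)
  · refine H (chr g t) (chr_one hg t) (chr_mul hg t) (norm_chr_le g t) y (fun z => ?_) fun z =>
      ((hy₀ y hy).2 z).trans (hρ'def ▸ min_le_left _ _)
    refine (sqSum_chr_le g ht y z).trans ?_
    rw [← le_div_iff₀' (by positivity)]
    exact ((hy₀ y hy).1 z).trans (hρ'def ▸ (min_le_right _ _).trans (min_le_left _ _))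

end FA.ErdosWintner
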