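import Fermat.Agent.ErdosWintner.Series

/-!
# The mean of a multiplicative function close to one

If `∑ ‖f p - 1‖ ² / p` has a small tail beyond `y`, the mean of `f` up to `x` is close to the
finite product times `exp (∑_{y < p ≤ √x} (f p - 1) / p)`, and this exponent varies slowly.
-/

set_option autoImplicit false

noncomputable section

namespace FA.ErdosWintner

open Finset Filter Topology
open FA.Delange (primesIoc mem_primesIoc sqSum partialProduct trunc)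

/-- `∑_{y < p ≤ R} (f p - 1) / p`. -/
def drift (f : ℕ → ℂ) (y R : ℕ) : ℂ := ∑ p ∈ primesIoc y R, (f p - 1) / (p : ℂ)

theorem drift_add (f : ℕ → ℂ) {y R S : ℕ} (h1 : y ≤ R) (h2 : R ≤ S) :
    drift f y R + drift f R S = drift f y S := by
  rw [drift, drift, drift, FA.Delange.sum_primesIoc_eq_sub _ h1,
    FA.Delange.sum_primesIoc_eq_sub _ h2, FA.Delange.sum_primesIoc_eq_sub _ (h1.trans h2)]
  ring

theorem norm_exp_drift_le {f : ℕ → ℂ} (hf : ∀ n, ‖f n‖ ≤ 1) (y R : ℕ) :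
    ‖Complex.exp (drift f y R)‖ ≤ 1 :=
  FA.Delange.norm_exp_le_one (FA.Delange.re_sum_div_nonpos hf _)

theorem approximation {η : ℝ} (hη : 0 < η) :
    ∃ ρ > 0, ∀ f : ℕ → ℂ, f 1 = 1 → (∀ m n : ℕ, m.Coprime n → f (m * n) = f m * f n) →
      (∀ n, ‖f n‖ ≤ 1) → ∀ y : ℕ, (∀ z, sqSum f y z ≤ ρ) →
      (∀ z, ∑ p ∈ primesIoc y z, ((p : ℝ) ^ 2)⁻¹ ≤ ρ) →
      (∀ᶠ x : ℕ in atTop, ‖(∑ n ∈ Icc 1 x, f n) / x -
        partialProduct f y * Complex.exp (drift f y (Nat.sqrt x))‖ ≤ η) ∧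
      (∀ᶠ N : ℕ in atTop, ∀ M, N ≤ M → M ≤ 2 * N →
        ‖drift f y (Nat.sqrt M) - drift f y (Nat.sqrt N)‖ ≤ η) := by
  obtain ⟨C, hC0, hC⟩ := FA.Delange.exists_recip_upper_le
  obtain ⟨δ, hδdef⟩ : ∃ δ, δ = η / (4 * (1 + C)) := ⟨_, rfl⟩
  have hδ : 0 < δ := by rw [hδdef]; positivity
  obtain ⟨ρ, hρdef⟩ : ∃ ρ, ρ = η / (4 * (6 / δ + 4)) := ⟨_, rfl⟩
  have hρ : 0 < ρ := by rw [hρdef]; positivity
  have h5 : δ * (1 + C) = η / 4 := by
    rw [hδdef]
    field_simp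
  have h6 : ρ * (6 / δ + 4) = η / 4 := by
    rw [hρdef]
    field_simp
  refine ⟨ρ, hρ, fun f h1 hmul hf y hD hQ => ⟨?_, ?_⟩⟩
  · filter_upwards [Metric.tendsto_nhds.1 (FA.Delange.tendsto_mean_trunc h1 hf y) (η / 2)
      (by positivity), eventually_ge_atTop (max 4 ((y + 1) * (y + 1)))] with x hmean hx
    have hx4 : 4 ≤ x := le_of_max_le_left hx
    have hyR : y ≤ Nat.sqrt x :=
      Nat.le_sqrt.2 (le_trans (Nat.mul_le_mul y.le_succ y.le_succ) (le_of_max_le_right hx))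
    have hx0 : (0 : ℝ) < x := by exact_mod_cast (by omega : 0 < x)
    have hb := FA.Delange.sum_norm_sub_trunc_mul_exp_le h1 hmul hf hC hδ hx4 hyR
    have hsmall : δ * (1 + C) + (6 / δ + 2) * sqSum f y x +
        2 * ∑ p ∈ primesIoc y x, ((p : ℝ) ^ 2)⁻¹ ≤ η / 2 := by
      have h7 := mul_le_mul_of_nonneg_left (hD x) (show (0 : ℝ) ≤ 6 / δ + 2 by positivity)
      linarith [hQ x]
    set E := Complex.exp (drift f y (Nat.sqrt x)) with hE
    have hdiff : ‖(∑ n ∈ Icc 1 x, f n) / (x : ℂ) -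
        (∑ n ∈ Icc 1 x, trunc f y n) / (x : ℂ) * E‖ ≤ η / 2 := by
      rw [div_mul_eq_mul_div, ← sub_div, sum_mul, ← sum_sub_distrib, norm_div,
        Complex.norm_natCast, div_le_iff₀ hx0]
      refine ((norm_sum_le _ _).trans hb).trans ?_
      rw [mul_comm (η / 2)]
      exact mul_le_mul_of_nonneg_left hsmall hx0.le
    rw [dist_eq_norm] at hmean
    have h8 : ‖(∑ n ∈ Icc 1 x, trunc f y n) / (x : ℂ) * E - partialProduct f y * E‖ ≤ η / 2 := by
      rw [← sub_mul, norm_mul]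
      exact (mul_le_of_le_one_right (norm_nonneg _) (norm_exp_drift_le hf _ _)).trans hmean.le
    have := norm_sub_le_norm_sub_add_norm_sub ((∑ n ∈ Icc 1 x, f n) / (x : ℂ))
      ((∑ n ∈ Icc 1 x, trunc f y n) / (x : ℂ) * E) (partialProduct f y * E)
    linarith
  · filter_upwards [eventually_ge_atTop (max 4 ((y + 1) * (y + 1)))] with N hN M hNM hM2
    have hN4 : 4 ≤ N := le_of_max_le_left hN
    have hyR : y ≤ Nat.sqrt N :=
      Nat.le_sqrt.2 (le_trans (Nat.mul_le_mul y.le_succ y.le_succ) (le_of_max_le_right hN))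
    have hMN : Nat.sqrt M ≤ N := Nat.lt_succ_iff.1 (Nat.sqrt_lt.2 (by nlinarith))
    rw [← drift_add f hyR (Nat.sqrt_le_sqrt hNM), add_sub_cancel_left]
    have hp : ∀ p ∈ primesIoc (Nat.sqrt N) (Nat.sqrt M), ‖(f p - 1) / (p : ℂ)‖ ≤
        ‖f p - 1‖ ^ 2 / p / (2 * δ) + δ / 2 * (p : ℝ)⁻¹ := by
      intro p hp
      have hp0 : (0 : ℝ) < p := Nat.cast_pos.2 (mem_primesIoc.1 hp).1.pos
      rw [norm_div, Complex.norm_natCast, ← sub_nonneg]
      refine le_of_le_of_eq (show (0 : ℝ) ≤ (‖f p - 1‖ - δ) ^ 2 / (2 * δ * p) by positivity) ?_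
      field_simp
      ring
    refine (norm_sum_le _ _).trans ((sum_le_sum hp).trans ?_)
    rw [sum_add_distrib, ← sum_div, ← mul_sum]
    have e1 : ∑ p ∈ primesIoc (Nat.sqrt N) (Nat.sqrt M), ‖f p - 1‖ ^ 2 / (p : ℝ) ≤ ρ := by
      refine le_trans (sum_le_sum_of_subset_of_nonneg (fun p hp => ?_) fun p _ _ => by positivity)
        (hD (Nat.sqrt M))
      rw [mem_primesIoc] at hp ⊢
      exact ⟨hp.1, by omega, hp.2.2⟩
    have e2 : ∑ p ∈ primesIoc (Nat.sqrt N) (Nat.sqrt M), ((p : ℕ) : ℝ)⁻¹ ≤ C := by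
      refine le_trans (sum_le_sum_of_subset_of_nonneg (fun p hp => ?_) fun p _ _ => by positivity)
        (hC N hN4)
      rw [mem_primesIoc] at hp
      rw [mem_filter, FA.ErdosKac.mem_primesUpTo]
      exact ⟨⟨hp.1, hp.2.2.trans hMN⟩, hp.2.1⟩
    have e3 := div_le_div_of_nonneg_right e1 (show (0 : ℝ) ≤ 2 * δ by positivity)
    have e4 := mul_le_mul_of_nonneg_left e2 (show (0 : ℝ) ≤ δ / 2 by positivity)
    have e5 : ρ * (6 / δ + 4) = ρ / (2 * δ) * 12 + 4 * ρ := by ring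
    have e6 : 0 ≤ ρ / (2 * δ) := by positivity
    linarith

end FA.ErdosWintner
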