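import Fermat.Agent.ErdosWintner.Twist

/-!
# Necessity: `c = 0` and convergence of `∑ g p / p`
-/

set_option autoImplicit false

noncomputable section

namespace FA.ErdosWintner

open Finset Filter Topology
open FA.Delange (primesIoc partialProduct)

variable {g h : ℕ → ℝ} {c t : ℝ} {φ : ℂ}

theorem norm_sum_sub_mul_le {F : ℕ → ℂ} {N : ℕ} (hN : 0 < N) {z : ℂ} {η : ℝ}
    (h : ‖(∑ n ∈ Icc 1 N, F n) / N - z‖ ≤ η) : ‖∑ n ∈ Icc 1 N, F n - N * z‖ ≤ η * N := by
  have hN0 : (0 : ℝ) < N := by exact_mod_cast hN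
  have e : ∑ n ∈ Icc 1 N, F n - N * z = N * ((∑ n ∈ Icc 1 N, F n) / N - z) := by
    rw [mul_sub, mul_div_cancel₀ _ (Nat.cast_ne_zero.2 hN.ne')]
  rw [e, norm_mul, Complex.norm_natCast, mul_comm η]
  exact mul_le_mul_of_nonneg_left h hN0.le

/-- In a short window `n ^ (i t c)` is constant, so the limit is close to
`N ^ (i t c) ∏ exp (drift)`. -/
theorem exists_window (hh : CoprimeAdditive h) (hw : Summable fun p : Nat.Primes => weight h p)
    (hgh : ∀ n, g n = h n + c * Real.log n)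
    (hφ : Tendsto (fun N : ℕ => (∑ n ∈ Icc 1 N, chr g t n) / N) atTop (𝓝 φ))
    {η : ℝ} (hη : 0 < η) :
    ∃ y₀, ∀ y ≥ y₀, (∀ z, (3 * t ^ 2 + 2) * ∑ p ∈ primesIoc y z, weight h p ≤ η) ∧
      ∀ᶠ N : ℕ in atTop, (∀ M, N ≤ M → M ≤ 2 * N →
        ‖drift (chr h t) y (Nat.sqrt M) - drift (chr h t) y (Nat.sqrt N)‖ ≤ η) ∧
        ‖φ - unitExp (t * c * Real.log N) *
          (partialProduct (chr h t) y * Complex.exp (drift (chr h t) y (Nat.sqrt N)))‖ ≤ η := by
  obtain ⟨ε, hεdef⟩ : ∃ e, e = min (1 / 2) (η / (4 * (|t * c| + 1))) := ⟨_, rfl⟩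
  have hε : 0 < ε := by rw [hεdef]; positivity
  have hε2 : ε ≤ 1 / 2 := hεdef ▸ min_le_left _ _
  have hεc : |t * c| * ε ≤ η / 4 := by
    have h1 : ε * (4 * (|t * c| + 1)) ≤ η := by
      rw [← le_div_iff₀ (by positivity), hεdef]
      exact min_le_right _ _
    nlinarith [abs_nonneg (t * c)]
  obtain ⟨η₁, hη₁def⟩ : ∃ e, e = min η (ε * η / 60) := ⟨_, rfl⟩
  have hη₁ : 0 < η₁ := by rw [hη₁def]; positivity
  obtain ⟨y₀, hy₀⟩ := exists_approx hh hw |t| hη₁
  refine ⟨y₀, fun y hy => ?_⟩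
  obtain ⟨hsum, hmean, hslow⟩ := hy₀ y hy t le_rfl
  refine ⟨fun z => (hsum z).trans (hη₁def ▸ min_le_left _ _), ?_⟩
  have hgood : ∀ᶠ N : ℕ in atTop, ∀ M, N ≤ M →
      ‖(∑ n ∈ Icc 1 M, chr g t n) / M - φ‖ ≤ η₁ ∧
      ‖(∑ n ∈ Icc 1 M, chr h t n) / M - partialProduct (chr h t) y *
        Complex.exp (drift (chr h t) y (Nat.sqrt M))‖ ≤ η₁ := by
    obtain ⟨N₀, hN₀⟩ := eventually_atTop.1 (((Metric.tendsto_nhds.1 hφ η₁ hη₁).mono
      fun M hM => (le_of_eq (dist_eq_norm _ φ).symm).trans hM.le).and hmean)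
    filter_upwards [eventually_ge_atTop N₀] with N hN M hM using hN₀ M (hN.trans hM)
  filter_upwards [hgood, hslow, eventually_ge_atTop ⌈2 / ε⌉₊, eventually_ge_atTop 1]
    with N hN hNslow hNbig hN1
  refine ⟨fun M h1 h2 => (hNslow M h1 h2).trans (hη₁def ▸ min_le_left _ _), ?_⟩
  set D := partialProduct (chr h t) y with hD
  set E := fun M : ℕ => Complex.exp (drift (chr h t) y (Nat.sqrt M)) with hE
  set u := unitExp (t * c * Real.log N) with hu
  have hN0 : (0 : ℝ) < N := by exact_mod_cast hN1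
  have hεN : 2 ≤ ε * N := by
    rw [mul_comm, ← div_le_iff₀ hε]
    exact Nat.ceil_le.1 hNbig
  set M := N + ⌊ε * N⌋₊ with hMdef
  have hMlo : ε * N / 2 ≤ (M : ℝ) - N := by
    rw [hMdef, Nat.cast_add, add_sub_cancel_left]
    linarith [Nat.lt_floor_add_one (ε * N)]
  have hMhi : (M : ℝ) - N ≤ ε * N := by
    rw [hMdef, Nat.cast_add, add_sub_cancel_left]
    exact Nat.floor_le (by positivity)
  have hM2 : (M : ℝ) ≤ 2 * N := by nlinarith
  have hNM : N ≤ M := Nat.le_add_right _ _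
  have hpoint : ∀ n ∈ Ioc N M, ‖chr g t n - u * chr h t n‖ ≤ |t * c| * ε := by
    intro n hn
    rw [mem_Ioc] at hn
    have hn0 : (N : ℝ) ≤ n := by exact_mod_cast hn.1.le
    have hnM : (n : ℝ) ≤ M := by exact_mod_cast hn.2
    have e : chr g t n - u * chr h t n =
        u * chr h t n * (unitExp (t * c * (Real.log n - Real.log N)) - 1) := by
      rw [chr, chr, hgh, hu, mul_sub_one, ← unitExp_add, ← unitExp_add]
      ring_nf
    rw [e, norm_mul, norm_mul, hu, norm_unitExp, chr, norm_unitExp, one_mul, one_mul]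
    refine (norm_unitExp_sub_one_le _).trans ?_
    rw [abs_mul]
    refine mul_le_mul_of_nonneg_left ?_ (abs_nonneg _)
    rw [abs_of_nonneg (sub_nonneg.2 (Real.log_le_log hN0 hn0)),
      ← Real.log_div (by linarith) hN0.ne']
    refine (Real.log_le_sub_one_of_pos (div_pos (by linarith) hN0)).trans ?_
    rw [sub_le_iff_le_add, div_le_iff₀ hN0]
    linarith
  have hsplit : ∀ F : ℕ → ℂ, ∑ n ∈ Ioc N M, F n = ∑ n ∈ Icc 1 M, F n - ∑ n ∈ Icc 1 N, F n := by
    intro F
    rw [eq_sub_iff_add_eq, add_comm]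
    have e : ∀ K : ℕ, Icc 1 K = Ioc 0 K := fun K => Icc_add_one_left_eq_Ioc 0 K
    rw [e M, e N]
    exact sum_Ioc_consecutive F (Nat.zero_le N) hNM
  obtain ⟨gN, hN'⟩ := hN N le_rfl
  obtain ⟨gM, hM'⟩ := hN M hNM
  have a1 := norm_sum_sub_mul_le hN1 gN
  have a2 := norm_sum_sub_mul_le (by omega : 0 < M) gM
  have a3 := norm_sum_sub_mul_le hN1 hN'
  have a4 := norm_sum_sub_mul_le (by omega : 0 < M) hM'
  have hED : ‖D * E M - D * E N‖ ≤ 2 * η₁ := by
    rw [← mul_sub, norm_mul]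
    refine (mul_le_of_le_one_left (norm_nonneg _)
      (norm_partialProduct_le (chr_one hh t) (norm_chr_le h t) y)).trans ?_
    refine (FA.Delange.norm_exp_sub_exp_le (FA.Delange.re_sum_div_nonpos (norm_chr_le h t) _)
      (FA.Delange.re_sum_div_nonpos (norm_chr_le h t) _)).trans ?_
    exact mul_le_mul_of_nonneg_left (hNslow M hNM (by exact_mod_cast hM2)) two_pos.le
  have key : ((M : ℝ) - N) * ‖φ - u * (D * E N)‖ ≤
      ((M : ℝ) - N) * (|t * c| * ε) + η₁ * (2 * M + 2 * N) + 2 * η₁ * M := by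
    have e1 : ((M : ℂ) - N) * (φ - u * (D * E N)) =
        -(∑ n ∈ Icc 1 M, chr g t n - M * φ) + (∑ n ∈ Icc 1 N, chr g t n - N * φ) +
        ∑ n ∈ Ioc N M, (chr g t n - u * chr h t n) +
        u * (∑ n ∈ Icc 1 M, chr h t n - M * (D * E M)) -
        u * (∑ n ∈ Icc 1 N, chr h t n - N * (D * E N)) +
        u * (M * (D * E M - D * E N)) := by
      rw [sum_sub_distrib, ← mul_sum, hsplit, hsplit]
      ring
    have e2 : ‖((M : ℂ) - N) * (φ - u * (D * E N))‖ = ((M : ℝ) - N) * ‖φ - u * (D * E N)‖ := by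
      rw [norm_mul, ← Complex.ofReal_natCast, ← Complex.ofReal_natCast, ← Complex.ofReal_sub,
        Complex.norm_real, Real.norm_of_nonneg (sub_nonneg.2 (Nat.cast_le.2 hNM))]
    rw [← e2, e1]
    refine (norm_add_le _ _).trans ((add_le_add ((norm_sub_le _ _).trans (add_le_add
      ((norm_add_le _ _).trans (add_le_add ((norm_add_le _ _).trans (add_le_add
        (norm_add_le _ _) le_rfl)) le_rfl)) le_rfl)) le_rfl).trans ?_)
    simp only [norm_neg, norm_mul, hu, norm_unitExp, one_mul, Complex.norm_natCast]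
    have b3 : ‖∑ n ∈ Ioc N M, (chr g t n - unitExp (t * c * Real.log N) * chr h t n)‖ ≤
        ((M : ℝ) - N) * (|t * c| * ε) := by
      refine (norm_sum_le _ _).trans ((sum_le_card_nsmul _ _ _ hpoint).trans_eq ?_)
      rw [Nat.card_Ioc, nsmul_eq_mul, Nat.cast_sub hNM]
    have b6 := mul_le_mul_of_nonneg_left hED (Nat.cast_nonneg (α := ℝ) M)
    linarith
  have hη₁' : 60 * η₁ ≤ ε * η := by
    have : η₁ ≤ ε * η / 60 := hη₁def ▸ min_le_right _ _
    linarith
  have hpos : (0 : ℝ) < (M : ℝ) - N := lt_of_lt_of_le (by positivity) hMlo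
  refine le_of_mul_le_mul_left (key.trans ?_) hpos
  nlinarith [mul_le_mul_of_nonneg_left hεc hpos.le, mul_le_mul_of_nonneg_left hMlo hη.le,
    mul_le_mul_of_nonneg_right hη₁' hN0.le, mul_le_mul_of_nonneg_left hM2 hη₁.le]

theorem exists_ne_zero_near {φ : ℝ → ℂ} (hφc : ContinuousAt φ 0) (hφ0 : φ 0 = 1) :
    ∃ δ > 0, ∀ t, |t| < δ → 1 / 2 ≤ ‖φ t‖ := by
  obtain ⟨δ, hδ, hb⟩ := Metric.continuousAt_iff.1 hφc (1 / 2) (by norm_num)
  refine ⟨δ, hδ, fun t ht => ?_⟩
  have := hb (x := t) (by rwa [Real.dist_eq, sub_zero])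
  rw [hφ0, dist_eq_norm] at this
  have := norm_sub_norm_le (1 : ℂ) (φ t)
  rw [norm_sub_rev, norm_one] at this
  linarith

theorem linear_twist_eq_zero (hh : CoprimeAdditive h)
    (hw : Summable fun p : Nat.Primes => weight h p) (hgh : ∀ n, g n = h n + c * Real.log n)
    {φ : ℝ → ℂ} (hφc : ContinuousAt φ 0) (hφ0 : φ 0 = 1)
    (hφ : ∀ t, Tendsto (fun N : ℕ => (∑ n ∈ Icc 1 N, chr g t n) / N) atTop (𝓝 (φ t))) :
    c = 0 := by
  obtain ⟨δ, hδ, hne⟩ := exists_ne_zero_near hφc hφ0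
  by_contra hc
  have hl : 0 < Real.log 2 := Real.log_pos one_lt_two
  have hcl : 0 < |c * Real.log 2| := abs_pos.2 (mul_ne_zero hc hl.ne')
  obtain ⟨t, ht0, htδ, ht2⟩ : ∃ t : ℝ, 0 < t ∧ t < δ ∧ t * |c * Real.log 2| < 1 :=
    ⟨min (δ / 2) (1 / (2 * |c * Real.log 2|)), by positivity,
      (min_le_left _ _).trans_lt (by linarith), by
      refine (mul_le_mul_of_nonneg_right (min_le_right _ _) hcl.le).trans_lt ?_
      rw [div_mul_eq_mul_div, div_lt_one (by positivity)]
      linarith⟩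
  have h12 := hne t (by rwa [abs_of_pos ht0])
  set u := unitExp (t * c * Real.log 2) with hu
  have hu1 : u = 1 := by
    by_contra hu1
    have hu0 : 0 < ‖u - 1‖ := norm_pos_iff.2 (sub_ne_zero.2 hu1)
    obtain ⟨y, hy⟩ := exists_window hh hw hgh (hφ t) (show 0 < ‖u - 1‖ / 20 by positivity)
    obtain ⟨-, hev⟩ := hy y le_rfl
    have h2N : Tendsto (fun N : ℕ => 2 * N) atTop atTop :=
      tendsto_atTop_mono (fun N => show N ≤ 2 * N by omega) tendsto_id
    obtain ⟨N, hN0, ⟨hslow, hwin⟩, -, hwin2⟩ :=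
      ((eventually_gt_atTop 0).and (hev.and (h2N.eventually hev))).exists
    set D := partialProduct (chr h t) y
    set X₁ := D * Complex.exp (drift (chr h t) y (Nat.sqrt N))
    set X₂ := D * Complex.exp (drift (chr h t) y (Nat.sqrt (2 * N)))
    set L := unitExp (t * c * Real.log N)
    have hX : ‖X₂ - X₁‖ ≤ 2 * (‖u - 1‖ / 20) := by
      rw [← mul_sub, norm_mul]
      refine (mul_le_of_le_one_left (norm_nonneg _)
        (norm_partialProduct_le (chr_one hh t) (norm_chr_le h t) y)).trans ?_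
      refine (FA.Delange.norm_exp_sub_exp_le (FA.Delange.re_sum_div_nonpos (norm_chr_le h t) _)
        (FA.Delange.re_sum_div_nonpos (norm_chr_le h t) _)).trans ?_
      exact mul_le_mul_of_nonneg_left (hslow _ (by omega) le_rfl) two_pos.le
    have hL2 : unitExp (t * c * Real.log ((2 * N : ℕ) : ℝ)) = u * L := by
      rw [Nat.cast_mul, Nat.cast_ofNat, Real.log_mul two_ne_zero (Nat.cast_ne_zero.2 hN0.ne'),
        mul_add, unitExp_add]
    rw [hL2] at hwin2
    have e : (u - 1) * φ t = u * (φ t - L * X₁) - (φ t - u * L * X₂) - u * L * (X₂ - X₁) := by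
      ring
    have hb : ‖(u - 1) * φ t‖ ≤ 4 * (‖u - 1‖ / 20) := by
      rw [e]
      refine (norm_sub_le _ _).trans ((add_le_add (norm_sub_le _ _) le_rfl).trans ?_)
      rw [norm_mul, norm_mul, norm_mul, norm_unitExp, norm_unitExp]
      linarith
    rw [norm_mul] at hb
    nlinarith
  have hcos : Real.cos (t * c * Real.log 2) = 1 := by
    rw [← re_unitExp, ← hu, hu1, Complex.one_re]
  have habs : |t * c * Real.log 2| < 1 := by
    rw [mul_assoc, abs_mul, abs_of_pos ht0]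
    exact ht2
  have hπ := Real.two_le_pi
  have := (Real.cos_eq_one_iff_of_lt_of_lt (by linarith [(abs_lt.1 habs).1])
    (by linarith [(abs_lt.1 habs).2])).1 hcos
  simp only [mul_eq_zero, ht0.ne', hc, hl.ne', or_self] at this

theorem cauchySeq_firstSum (hg : CoprimeAdditive g)
    (hw : Summable fun p : Nat.Primes => weight g p) {φ : ℝ → ℂ} (hφc : ContinuousAt φ 0)
    (hφ0 : φ 0 = 1)
    (hφ : ∀ t, Tendsto (fun N : ℕ => (∑ n ∈ Icc 1 N, chr g t n) / N) atTop (𝓝 (φ t))) :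
    CauchySeq (firstSum g) := by
  obtain ⟨δ, hδ, hne⟩ := exists_ne_zero_near hφc hφ0
  have hgg : ∀ n, g n = g n + 0 * Real.log n := fun n => by ring
  have hcos : ∀ t, |t| < δ → Tendsto
      (fun z : ℕ × ℕ => Real.cos (t * (firstSum g z.1 - firstSum g z.2)))
      (atTop ×ˢ atTop) (𝓝 1) := by
    intro t ht
    have h12 := hne t ht
    refine Metric.tendsto_nhds.2 fun ε hε => ?_
    obtain ⟨η, hηdef⟩ : ∃ e, e = min (ε / 50) (1 / 8 : ℝ) := ⟨_, rfl⟩
    have hη : 0 < η := by rw [hηdef]; positivity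
    obtain ⟨y, hy⟩ := exists_window hg hw hgg (hφ t) hη
    obtain ⟨hsum, hev⟩ := hy y le_rfl
    obtain ⟨N₀, hN₀⟩ := eventually_atTop.1 hev
    have hclose : ∀ m, max N₀ y ≤ m → ‖φ t - partialProduct (chr g t) y *
        unitExp (t * (firstSum g m - firstSum g y))‖ ≤ 3 * η := by
      intro m hm
      have hy' : y ≤ m := le_of_max_le_right hm
      have h2 : N₀ ≤ m * m := (le_of_max_le_left hm).trans (Nat.le_mul_self m)
      have h1 := (hN₀ _ h2).2
      rw [mul_zero, zero_mul, unitExp_zero, one_mul, Nat.sqrt_eq] at h1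
      have h3 := (norm_drift_chr_sub_le g t hy').trans (hsum m)
      have hre : (((t * (firstSum g m - firstSum g y) : ℝ) : ℂ) * Complex.I).re ≤ 0 := by simp
      have h4 : ‖partialProduct (chr g t) y * Complex.exp (drift (chr g t) y m) -
          partialProduct (chr g t) y * unitExp (t * (firstSum g m - firstSum g y))‖ ≤ 2 * η := by
        rw [← mul_sub, norm_mul]
        refine (mul_le_of_le_one_left (norm_nonneg _)
          (norm_partialProduct_le (chr_one hg t) (norm_chr_le g t) y)).trans ?_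
        refine (FA.Delange.norm_exp_sub_exp_le (FA.Delange.re_sum_div_nonpos (norm_chr_le g t) _)
          hre).trans ?_
        exact mul_le_mul_of_nonneg_left h3 two_pos.le
      have := norm_sub_le_norm_sub_add_norm_sub (φ t)
        (partialProduct (chr g t) y * Complex.exp (drift (chr g t) y m))
        (partialProduct (chr g t) y * unitExp (t * (firstSum g m - firstSum g y)))
      linarith
    filter_upwards [(eventually_ge_atTop (max N₀ y)).prod_mk (eventually_ge_atTop (max N₀ y))]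
      with z hz
    obtain ⟨hz1, hz2⟩ := hz
    set P := partialProduct (chr g t) y
    set a := unitExp (t * (firstSum g z.1 - firstSum g y)) with ha
    set b := unitExp (t * (firstSum g z.2 - firstSum g y)) with hb
    have hA := hclose _ hz1
    have hB := hclose _ hz2
    rw [← ha] at hA
    rw [← hb] at hB
    have hP : 1 / 8 ≤ ‖P‖ := by
      have := norm_le_norm_add_norm_sub' (φ t) (P * a)
      rw [norm_mul, ha, norm_unitExp, mul_one, ← ha] at this
      have : η ≤ 1 / 8 := hηdef ▸ min_le_right _ _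
      linarith
    have hab : ‖a - b‖ ≤ 48 * η := by
      have h4 : ‖P * (a - b)‖ ≤ 6 * η := by
        have := norm_sub_le_norm_sub_add_norm_sub (P * a) (φ t) (P * b)
        rw [mul_sub]
        rw [norm_sub_rev (P * a) (φ t)] at this
        linarith
      rw [norm_mul] at h4
      nlinarith [norm_nonneg (a - b)]
    set d := t * (firstSum g z.1 - firstSum g z.2) with hd
    have hd' : a = b * unitExp d := by
      rw [ha, hb, ← unitExp_add, hd]
      ring_nf
    have h5 : ‖unitExp d - 1‖ ≤ 48 * η := by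
      refine le_trans (le_of_eq ?_) hab
      rw [hd', ← mul_sub_one, norm_mul, hb, norm_unitExp, one_mul]
    have h6 : |Real.cos d - 1| ≤ 48 * η := by
      refine le_trans ?_ h5
      rw [← re_unitExp, ← Complex.one_re, ← Complex.sub_re]
      exact Complex.abs_re_le_norm _
    rw [Real.dist_eq]
    have h7 : η ≤ ε / 50 := hηdef ▸ min_le_left _ _
    linarith
  obtain ⟨s, hs0, hsδ⟩ : ∃ s : ℝ, 0 < s ∧ s < δ := ⟨δ / 2, by positivity, by linarith⟩
  have hmin := tendsto_min_sq_of_cos (l := (atTop ×ˢ atTop : Filter (ℕ × ℕ)))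
    (u := fun z => s * (firstSum g z.1 - firstSum g z.2)) fun r hr => by
      refine (hcos (r * s) ?_).congr fun z => by rw [mul_assoc]
      rw [abs_mul, abs_of_nonneg hr.1, abs_of_pos hs0]
      exact (mul_le_of_le_one_left hs0.le hr.2).trans_lt hsδ
  refine Metric.cauchySeq_iff.2 fun ε hε => ?_
  have hev : ∀ᶠ z : ℕ × ℕ in atTop ×ˢ atTop,
      min 1 ((s * (firstSum g z.1 - firstSum g z.2)) ^ 2) < min 1 ((s * ε) ^ 2) :=
    hmin.eventually (Iio_mem_nhds (lt_min one_pos (by positivity)))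
  rw [Filter.prod_atTop_atTop_eq, eventually_atTop] at hev
  obtain ⟨⟨n₁, n₂⟩, hn⟩ := hev
  refine ⟨max n₁ n₂, fun a ha b hb => ?_⟩
  have h := hn (a, b) (Prod.mk_le_mk.2 ⟨le_of_max_le_left ha, le_of_max_le_right hb⟩)
  rcases min_lt_iff.1 h with h1 | h1
  · exact absurd h1 (not_lt.2 (min_le_left _ _))
  · have h2 : (s * (firstSum g a - firstSum g b)) ^ 2 < (s * ε) ^ 2 :=
      h1.trans_le (min_le_right _ _)
    rw [Real.dist_eq]
    rw [mul_pow, mul_pow, mul_lt_mul_iff_right₀ (by positivity), sq_lt_sq, abs_of_pos hε] at h2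
    exact h2

/-- **Necessity of the three series.** -/
theorem three_series_of_limit (hg : CoprimeAdditive g) {φ : ℝ → ℂ} (hφc : ContinuousAt φ 0)
    (hφ0 : φ 0 = 1)
    (hφ : ∀ t, Tendsto (fun N : ℕ => (∑ n ∈ Icc 1 N, chr g t n) / N) atTop (𝓝 (φ t))) :
    (Summable fun p : Nat.Primes => weight g p) ∧ ∃ L, Tendsto (firstSum g) atTop (𝓝 L) := by
  obtain ⟨c, hc⟩ := exists_linear_twist hg hφc hφ0 hφ
  set h : ℕ → ℝ := fun n => g n - c * Real.log n with hh
  have hhadd : CoprimeAdditive h := by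
    intro m n hmn
    rcases eq_or_ne m 0 with rfl | hm
    · obtain rfl : n = 1 := by simpa using hmn
      simp [hh, hg.apply_one]
    rcases eq_or_ne n 0 with rfl | hn
    · obtain rfl : m = 1 := by simpa using hmn
      simp [hh, hg.apply_one]
    simp only [hh, hg m n hmn, Nat.cast_mul,
      Real.log_mul (Nat.cast_ne_zero.2 hm) (Nat.cast_ne_zero.2 hn)]
    ring
  have hgh : ∀ n, g n = h n + c * Real.log n := fun n => by simp [hh]
  have hc0 := linear_twist_eq_zero hhadd hc hgh hφc hφ0 hφ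
  have hw : Summable fun p : Nat.Primes => weight g p := by
    simpa [hh, hc0] using hc
  exact ⟨hw, cauchySeq_tendsto_of_complete (cauchySeq_firstSum hg hw hφc hφ0 hφ)⟩

end FA.ErdosWintner
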