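import Fermat.Agent.ErdosWintner.Sufficiency
import Fermat.Agent.ErdosWintner.Necessity
import Mathlib.MeasureTheory.Measure.LevyConvergence
import Mathlib.MeasureTheory.Measure.Prokhorov
import Mathlib.MeasureTheory.Measure.CharacteristicFunction.TaylorExpansion

/-!
# Limit laws of additive functions

The empirical law of `g` on `{1, …, N + 1}` converges weakly if and only if the three series
converge (Erdős-Wintner); the bridge is Lévy's continuity theorem.
-/

set_option autoImplicit false

noncomputable section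

namespace FA.ErdosWintner

open Finset Filter Topology MeasureTheory
open scoped BoundedContinuousFunction ENNReal

/-- The law of `g n` for `n` uniform on `{1, …, N + 1}`. -/
def empirical (g : ℕ → ℝ) (N : ℕ) : ProbabilityMeasure ℝ :=
  ⟨((N + 1 : ℕ) : ℝ≥0∞)⁻¹ • ∑ n ∈ Icc 1 (N + 1), Measure.dirac (g n), by
    constructor
    simp [ENNReal.inv_mul_cancel]⟩

theorem integral_empirical {𝕜 : Type*} [RCLike 𝕜] (g : ℕ → ℝ) (F : ℝ →ᵇ 𝕜) (N : ℕ) :
    ∫ x, F x ∂(empirical g N : Measure ℝ) =
      (∑ n ∈ Icc 1 (N + 1), F (g n)) / ((N + 1 : ℕ) : 𝕜) := by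
  rw [empirical, ProbabilityMeasure.coe_mk, integral_smul_measure,
    integral_finsetSum_measure (fun n _ => F.integrable _), ENNReal.toReal_inv,
    ENNReal.toReal_natCast]
  simp [RCLike.real_smul_eq_coe_mul, div_eq_inv_mul]

theorem charFun_empirical (g : ℕ → ℝ) (N : ℕ) (t : ℝ) :
    charFun (empirical g N : Measure ℝ) t =
      (∑ n ∈ Icc 1 (N + 1), chr g t n) / ((N + 1 : ℕ) : ℂ) := by
  rw [charFun_eq_integral_innerProbChar, integral_empirical]
  simp [BoundedContinuousFunction.innerProbChar_apply, chr, unitExp, mul_comm]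

/-- Weak convergence of the empirical laws, in terms of means. -/
theorem tendsto_empirical_iff (g : ℕ → ℝ) (μ : ProbabilityMeasure ℝ) :
    Tendsto (empirical g) atTop (𝓝 μ) ↔ ∀ F : ℝ →ᵇ ℝ,
      Tendsto (fun N : ℕ => (∑ n ∈ Icc 1 N, F (g n)) / N) atTop
        (𝓝 (∫ x, F x ∂(μ : Measure ℝ))) := by
  rw [ProbabilityMeasure.tendsto_iff_forall_integral_tendsto]
  refine forall_congr' fun F => ?_
  simp_rw [integral_empirical]
  exact tendsto_add_atTop_iff_nat (f := fun N : ℕ => (∑ n ∈ Icc 1 N, F (g n)) / (N : ℝ)) 1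

/-- The mean of `e ^ (i t g n)` is the characteristic function of the empirical law. -/
theorem tendsto_charFun_empirical_iff (g : ℕ → ℝ) (t : ℝ) (z : ℂ) :
    Tendsto (fun N => charFun (empirical g N : Measure ℝ) t) atTop (𝓝 z) ↔
      Tendsto (fun N : ℕ => (∑ n ∈ Icc 1 N, chr g t n) / N) atTop (𝓝 z) := by
  simp_rw [charFun_empirical]
  exact tendsto_add_atTop_iff_nat (f := fun N : ℕ => (∑ n ∈ Icc 1 N, chr g t n) / (N : ℂ)) 1

/-- Lévy's continuity theorem: a limit continuous at `0` is the characteristic function of a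
limit law. -/
theorem exists_tendsto_of_charFun {μ : ℕ → ProbabilityMeasure ℝ} {φ : ℝ → ℂ}
    (hφc : ContinuousAt φ 0)
    (hφ : ∀ t, Tendsto (fun N => charFun (μ N : Measure ℝ) t) atTop (𝓝 (φ t))) :
    ∃ ν, Tendsto μ atTop (𝓝 ν) := by
  have htight : IsTightMeasureSet
      {((ρ : ProbabilityMeasure ℝ) : Measure ℝ) | ρ ∈ Set.range μ} := by
    convert isTightMeasureSet_of_tendsto_charFun (μ := fun N => (μ N : Measure ℝ)) hφc hφ using 1
    ext ρ
    simp
  obtain ⟨ν, -, hν⟩ := (isCompact_closure_of_isTightMeasureSet htight).ultrafilter_le_nhds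
    ((Ultrafilter.of atTop).map μ) (le_principal_iff.2
      (Filter.mem_map.2 (univ_mem' fun N => subset_closure (Set.mem_range_self N))))
  refine ⟨ν, ProbabilityMeasure.tendsto_of_tendsto_charFun fun t => ?_⟩
  have h1 : Tendsto (fun N => charFun (μ N : Measure ℝ) t)
      (Ultrafilter.of (atTop : Filter ℕ) : Filter ℕ) (𝓝 (charFun (ν : Measure ℝ) t)) := by
    simp_rw [charFun_eq_integral_innerProbChar]
    exact (ProbabilityMeasure.tendsto_iff_forall_integral_rclike_tendsto ℂ).1
      (show Tendsto μ _ (𝓝 ν) from hν) (BoundedContinuousFunction.innerProbChar t)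
  rw [← tendsto_nhds_unique ((hφ t).mono_left (Ultrafilter.of_le _)) h1]
  exact hφ t

/-- **Erdős-Wintner**: an additive function has a limit law iff its three series converge. -/
theorem exists_limitLaw_iff {g : ℕ → ℝ} (hg : CoprimeAdditive g) :
    (∃ μ, Tendsto (empirical g) atTop (𝓝 μ)) ↔
      (Summable fun p : Nat.Primes => weight g p) ∧ ∃ L, Tendsto (firstSum g) atTop (𝓝 L) := by
  constructor
  · rintro ⟨μ, hμ⟩
    refine three_series_of_limit hg (φ := charFun (μ : Measure ℝ))
      continuous_charFun.continuousAt (by simp) fun t => ?_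
    exact (tendsto_charFun_empirical_iff g t _).1
      (ProbabilityMeasure.tendsto_iff_tendsto_charFun.1 hμ t)
  · rintro ⟨hw, L, hL⟩
    obtain ⟨φ, hφc, hφ⟩ := exists_charFun_limit hg hw hL
    exact exists_tendsto_of_charFun hφc fun t => (tendsto_charFun_empirical_iff g t _).2 (hφ t)

end FA.ErdosWintner
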