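import Fermat.Agent.Delange.Main
import Mathlib.Analysis.SpecialFunctions.Integrals.Basic
import Mathlib.Analysis.SpecialFunctions.Trigonometric.Bounds

/-!
# Tools for the Erdős-Wintner theorem

Tails of series over primes, the kernel `∫₀¹ (1 - cos (t u)) dt ≍ min (1, u ²)` and the character
`u ↦ e ^ (i u)`.
-/

set_option autoImplicit false

noncomputable section

namespace FA.ErdosWintner

open Finset Filter Topology
open FA.Delange (primesIoc mem_primesIoc)
open scoped Interval

/-- `e ^ (i u)`. -/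
def unitExp (u : ℝ) : ℂ := Complex.exp ((u : ℂ) * Complex.I)

theorem unitExp_zero : unitExp 0 = 1 := by simp [unitExp]

theorem unitExp_add (u v : ℝ) : unitExp (u + v) = unitExp u * unitExp v := by
  rw [unitExp, unitExp, unitExp, ← Complex.exp_add, Complex.ofReal_add, add_mul]

theorem norm_unitExp (u : ℝ) : ‖unitExp u‖ = 1 := Complex.norm_exp_ofReal_mul_I u

theorem re_unitExp (u : ℝ) : (unitExp u).re = Real.cos u := Complex.exp_ofReal_mul_I_re u

theorem im_unitExp (u : ℝ) : (unitExp u).im = Real.sin u := Complex.exp_ofReal_mul_I_im u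

theorem continuous_unitExp : Continuous unitExp := by
  unfold unitExp
  fun_prop

theorem sq_norm_unitExp_sub_one (u : ℝ) : ‖unitExp u - 1‖ ^ 2 = 2 * (1 - Real.cos u) := by
  rw [Complex.sq_norm, Complex.normSq_apply, Complex.sub_re, Complex.sub_im, re_unitExp,
    im_unitExp, Complex.one_re, Complex.one_im, sub_zero]
  nlinarith [Real.sin_sq_add_cos_sq u]

theorem two_mul_one_sub_cos_le (u : ℝ) : 2 * (1 - Real.cos u) ≤ 4 * min 1 (u ^ 2) := by
  rcases le_total 1 (u ^ 2) with h | h
  · rw [min_eq_left h]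
    linarith [Real.neg_one_le_cos u]
  · rw [min_eq_right h]
    nlinarith [Real.one_sub_sq_div_two_le_cos (x := u), sq_nonneg u]

theorem sq_norm_unitExp_sub_one_le (u : ℝ) : ‖unitExp u - 1‖ ^ 2 ≤ 4 * min 1 (u ^ 2) :=
  (sq_norm_unitExp_sub_one u).trans_le (two_mul_one_sub_cos_le u)

theorem norm_unitExp_sub_one_le (u : ℝ) : ‖unitExp u - 1‖ ≤ |u| := by
  refine le_of_pow_le_pow_left₀ two_ne_zero (abs_nonneg u) ?_
  rw [sq_norm_unitExp_sub_one, sq_abs]
  nlinarith [Real.one_sub_sq_div_two_le_cos (x := u)]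

theorem norm_unitExp_sub_one_sub_le (u : ℝ) :
    ‖unitExp u - 1 - (u : ℂ) * Complex.I‖ ≤ 3 * u ^ 2 := by
  have hn : ‖(u : ℂ) * Complex.I‖ = |u| := by simp
  rcases le_or_gt |u| 1 with h | h
  · refine (Complex.norm_exp_sub_one_sub_id_le (x := (u : ℂ) * Complex.I) (by rwa [hn])).trans ?_
    rw [hn, sq_abs]
    nlinarith [sq_nonneg u]
  · refine (norm_sub_le _ _).trans ?_
    rw [hn]
    have := norm_unitExp_sub_one_le u
    nlinarith [sq_abs u]

theorem tail_le {F : ℕ → ℝ} (h0 : ∀ p, 0 ≤ F p) (hs : Summable fun p : Nat.Primes => F p)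
    {η : ℝ} (hη : 0 < η) : ∀ᶠ y : ℕ in atTop, ∀ z, ∑ p ∈ primesIoc y z, F p ≤ η := by
  set G := Set.indicator {p : ℕ | p.Prime} F with hG
  have hGs : Summable G := summable_subtype_iff_indicator.1 hs
  have hG0 : ∀ n, 0 ≤ G n := fun n => Set.indicator_nonneg (fun x _ => h0 x) n
  filter_upwards [(hGs.hasSum.tendsto_sum_nat.comp (tendsto_add_atTop_nat 1)).eventually
    (Ioi_mem_nhds (show ∑' n, G n - η < ∑' n, G n by linarith))] with y hy z
  have hd : Disjoint (range (y + 1)) (primesIoc y z) := by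
    rw [disjoint_left]
    intro p hp hp'
    rw [mem_range] at hp
    have := (mem_primesIoc.1 hp').2.1
    omega
  have h1 := hGs.sum_le_tsum (range (y + 1) ∪ primesIoc y z) (fun n _ => hG0 n)
  rw [sum_union hd] at h1
  have h2 : ∑ p ∈ primesIoc y z, G p = ∑ p ∈ primesIoc y z, F p :=
    sum_congr rfl fun p hp => Set.indicator_of_mem (show p ∈ {p : ℕ | p.Prime} from
      (mem_primesIoc.1 hp).1) F
  simp only [Function.comp_apply] at hy
  linarith

theorem tail_sq_le {η : ℝ} (hη : 0 < η) :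
    ∀ᶠ y : ℕ in atTop, ∀ z, ∑ p ∈ primesIoc y z, ((p : ℝ) ^ 2)⁻¹ ≤ η :=
  tail_le (fun p => by positivity) (by
    have h : Summable fun n : ℕ => ((n : ℝ) ^ 2)⁻¹ := by simp
    exact h.subtype _) hη

/-- `κ min (1, u ²) ≤ ∫₀¹ (1 - cos (t u)) dt`. -/
theorem exists_kernel_le : ∃ κ : ℝ, 0 < κ ∧ ∀ u : ℝ,
    κ * min 1 (u ^ 2) ≤ ∫ t in (0 : ℝ)..1, (1 - Real.cos (t * u)) := by
  have hπ := Real.pi_pos
  refine ⟨min (2 / (3 * Real.pi ^ 2)) (1 - 1 / Real.pi), lt_min (by positivity) ?_, fun u => ?_⟩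
  · rw [sub_pos, div_lt_one hπ]
    linarith [Real.two_le_pi]
  set κ := min (2 / (3 * Real.pi ^ 2)) (1 - 1 / Real.pi) with hκ
  rcases le_or_gt |u| Real.pi with h | h
  · have hle : ∀ t ∈ Set.Icc (0 : ℝ) 1,
        2 / Real.pi ^ 2 * (t * u) ^ 2 ≤ 1 - Real.cos (t * u) := by
      intro t ht
      have : |t * u| ≤ Real.pi := by
        rw [abs_mul, abs_of_nonneg ht.1]
        exact (mul_le_of_le_one_left (abs_nonneg u) ht.2).trans h
      linarith [Real.cos_le_one_sub_mul_cos_sq this]
    have h1 := intervalIntegral.integral_mono_on (μ := MeasureTheory.volume) zero_le_one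
      (Continuous.intervalIntegrable (by fun_prop) _ _)
      (Continuous.intervalIntegrable (by fun_prop) _ _) hle
    have h2 : ∫ t in (0 : ℝ)..1, 2 / Real.pi ^ 2 * (t * u) ^ 2 =
        2 / (3 * Real.pi ^ 2) * u ^ 2 := by
      simp only [mul_pow, ← mul_assoc]
      rw [intervalIntegral.integral_mul_const, intervalIntegral.integral_const_mul, integral_pow]
      field_simp
      ring
    rw [h2] at h1
    refine le_trans ?_ h1
    exact mul_le_mul (min_le_left _ _) (min_le_right _ _) (le_min zero_le_one (sq_nonneg u))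
      (by positivity)
  · have hu : u ≠ 0 := fun h0 => by
      rw [h0, abs_zero] at h
      linarith
    have h2 : ∫ t in (0 : ℝ)..1, (1 - Real.cos (t * u)) = 1 - Real.sin u / u := by
      rw [intervalIntegral.integral_sub (intervalIntegrable_const :
          IntervalIntegrable (fun _ => (1 : ℝ)) MeasureTheory.volume 0 1)
        (Continuous.intervalIntegrable (by fun_prop) _ _),
        intervalIntegral.integral_comp_mul_right _ hu, integral_cos, zero_mul, one_mul,
        Real.sin_zero, sub_zero, intervalIntegral.integral_const, sub_zero, smul_eq_mul, one_mul,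
        smul_eq_mul, div_eq_inv_mul]
    rw [h2]
    have h3 : Real.sin u / u ≤ 1 / Real.pi := by
      refine (le_abs_self _).trans ?_
      rw [abs_div]
      exact div_le_div₀ zero_le_one (Real.abs_sin_le_one u) hπ h.le
    have h4 : κ * min 1 (u ^ 2) ≤ (1 - 1 / Real.pi) * 1 :=
      mul_le_mul (min_le_right _ _) (min_le_left _ _) (le_min zero_le_one (sq_nonneg u)) (by
        rw [sub_nonneg, div_le_one hπ]
        linarith [Real.two_le_pi])
    linarith

/-- If `cos (s u k) → 1` on `[0, 1]` then `u k → 0`. -/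
theorem tendsto_min_sq_of_cos {α : Type*} {l : Filter α} [l.IsCountablyGenerated]
    {u : α → ℝ} (h : ∀ s ∈ Set.Icc (0 : ℝ) 1, Tendsto (fun k => Real.cos (s * u k)) l (𝓝 1)) :
    Tendsto (fun k => min 1 (u k ^ 2)) l (𝓝 0) := by
  obtain ⟨κ, hκ, hK⟩ := exists_kernel_le
  have hI : Tendsto (fun k => ∫ t in (0 : ℝ)..1, (1 - Real.cos (t * u k))) l (𝓝 0) := by
    have h0 : ∫ _t in (0 : ℝ)..1, (0 : ℝ) = 0 := by simp
    suffices hlim : Tendsto (fun k => ∫ t in (0 : ℝ)..1, (1 - Real.cos (t * u k))) l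
        (𝓝 (∫ _t in (0 : ℝ)..1, (0 : ℝ))) by rwa [h0] at hlim
    refine intervalIntegral.tendsto_integral_filter_of_dominated_convergence (fun _ => 2)
      (Eventually.of_forall fun k => (Continuous.aestronglyMeasurable (by fun_prop)))
      (Eventually.of_forall fun k => Eventually.of_forall fun t _ => ?_) intervalIntegrable_const
      (Eventually.of_forall fun t ht => ?_)
    · rw [Real.norm_eq_abs, abs_le]
      exact ⟨by linarith [Real.cos_le_one (t * u k)], by linarith [Real.neg_one_le_cos (t * u k)]⟩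
    · rw [Set.uIoc_of_le zero_le_one] at ht
      simpa using (h t ⟨ht.1.le, ht.2⟩).const_sub 1
  refine squeeze_zero (fun k => le_min zero_le_one (sq_nonneg _)) (fun k => ?_)
    (by simpa using hI.div_const κ)
  rw [le_div_iff₀ hκ, mul_comm]
  exact hK (u k)

end FA.ErdosWintner
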