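import Fermat.Agent.ErdosWintner.Additive

/-!
# The three series give a characteristic function in the limit
-/

set_option autoImplicit false

noncomputable section

namespace FA.ErdosWintner

open Finset Filter Topology
open FA.Delange (primesIoc partialProduct localFactor norm_exp_sub_one_le_two_mul)

variable {g : ℕ → ℝ}

theorem continuous_partialProduct_chr (g : ℕ → ℝ) (y : ℕ) :
    Continuous fun t => partialProduct (chr g t) y := by
  refine continuous_finsetProd _ fun p hp => ?_
  obtain ⟨hpp, -⟩ := FA.ErdosKac.mem_primesUpTo.1 hp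
  unfold localFactor
  refine continuous_const.mul (continuous_tsum (u := fun k => ((p : ℝ)⁻¹) ^ k) (fun k => ?_)
    (summable_geometric_of_lt_one (by positivity)
      (inv_lt_one_of_one_lt₀ (by exact_mod_cast hpp.one_lt))) fun k t => ?_)
  · simp only [chr]
    exact (continuous_unitExp.comp (continuous_id.mul continuous_const)).div_const _
  · rw [norm_div, norm_pow, Complex.norm_natCast, inv_pow, ← one_div]
    exact div_le_div_of_nonneg_right (norm_chr_le g t _) (by positivity)

/-- The means are close to one finite product, uniformly for bounded `t`. -/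
theorem exists_uniform_product (hg : CoprimeAdditive g)
    (hw : Summable fun p : Nat.Primes => weight g p) {L : ℝ}
    (hA : Tendsto (firstSum g) atTop (𝓝 L)) {T η : ℝ} (hT : 0 ≤ T) (hη : 0 < η) :
    ∃ y, ∀ t : ℝ, |t| ≤ T →
      ∀ᶠ x : ℕ in atTop,
        ‖(∑ n ∈ Icc 1 x, chr g t n) / x - partialProduct (chr g t) y‖ ≤ η := by
  obtain ⟨y₀, hy₀⟩ := exists_approx hg hw T (show 0 < η / 7 by positivity)
  obtain ⟨y₁, hy₁⟩ := eventually_atTop.1
    (Metric.tendsto_nhds.1 hA (η / (14 * (T + 1))) (by positivity))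
  refine ⟨max y₀ y₁, fun t ht => ?_⟩
  set y := max y₀ y₁
  obtain ⟨hsum, hmean, -⟩ := hy₀ y (le_max_left _ _) t ht
  filter_upwards [hmean, eventually_ge_atTop (y * y)] with x hx hxy
  have hyR : y ≤ Nat.sqrt x := Nat.le_sqrt.2 hxy
  set R := Nat.sqrt x
  have hd : ‖drift (chr g t) y R‖ ≤ 2 * η / 7 := by
    have h1 := (norm_drift_chr_sub_le g t hyR).trans (hsum R)
    have h2 : ‖((t * (firstSum g R - firstSum g y) : ℝ) : ℂ) * Complex.I‖ ≤ η / 7 := by
      rw [norm_mul, Complex.norm_I, mul_one, Complex.norm_real, Real.norm_eq_abs, abs_mul]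
      have h3 := hy₁ R ((le_max_right y₀ y₁).trans hyR)
      have h4 := hy₁ y (le_max_right _ _)
      have h5 : |firstSum g R - firstSum g y| ≤ η / (7 * (T + 1)) := by
        rw [← Real.dist_eq]
        refine (dist_triangle_right _ _ L).trans ((add_le_add h3.le h4.le).trans_eq ?_)
        field_simp
        ring
      refine (mul_le_mul (ht.trans (show T ≤ T + 1 by linarith)) h5 (abs_nonneg _)
        (by linarith)).trans_eq ?_
      field_simp
    have h6 := norm_le_norm_add_norm_sub' (drift (chr g t) y R)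
      (((t * (firstSum g R - firstSum g y) : ℝ) : ℂ) * Complex.I)
    linarith
  have hexp : ‖partialProduct (chr g t) y * Complex.exp (drift (chr g t) y R) -
      partialProduct (chr g t) y‖ ≤ 4 * η / 7 := by
    rw [← mul_sub_one, norm_mul]
    refine (mul_le_of_le_one_left (norm_nonneg _)
      (norm_partialProduct_le (chr_one hg t) (norm_chr_le g t) y)).trans ?_
    refine (norm_exp_sub_one_le_two_mul
      (FA.Delange.re_sum_div_nonpos (norm_chr_le g t) _)).trans ?_
    show 2 * ‖drift (chr g t) y R‖ ≤ _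
    linarith
  have := norm_sub_le_norm_sub_add_norm_sub ((∑ n ∈ Icc 1 x, chr g t n) / (x : ℂ))
    (partialProduct (chr g t) y * Complex.exp (drift (chr g t) y R)) (partialProduct (chr g t) y)
  linarith

/-- The limiting characteristic function exists and is continuous at `0`. -/
theorem exists_charFun_limit (hg : CoprimeAdditive g)
    (hw : Summable fun p : Nat.Primes => weight g p) {L : ℝ}
    (hA : Tendsto (firstSum g) atTop (𝓝 L)) :
    ∃ φ : ℝ → ℂ, ContinuousAt φ 0 ∧
      ∀ t, Tendsto (fun N : ℕ => (∑ n ∈ Icc 1 N, chr g t n) / N) atTop (𝓝 (φ t)) := by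
  have hlim : ∀ t : ℝ, ∃ l : ℂ,
      Tendsto (fun N : ℕ => (∑ n ∈ Icc 1 N, chr g t n) / N) atTop (𝓝 l) := by
    intro t
    refine cauchySeq_tendsto_of_complete (Metric.cauchySeq_iff.2 fun ε hε => ?_)
    obtain ⟨y, hy⟩ := exists_uniform_product hg hw hA (abs_nonneg t) (show 0 < ε / 3 by positivity)
    obtain ⟨x₀, hx₀⟩ := eventually_atTop.1 (hy t le_rfl)
    refine ⟨x₀, fun m hm n hn => ?_⟩
    have h1 := hx₀ m hm
    have h2 := hx₀ n hn
    rw [← dist_eq_norm] at h1 h2
    exact (dist_triangle_right _ _ (partialProduct (chr g t) y)).trans_lt (by linarith)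
  choose φ hφ using hlim
  refine ⟨φ, Metric.continuousAt_iff.2 fun ε hε => ?_, hφ⟩
  obtain ⟨y, hy⟩ := exists_uniform_product hg hw hA zero_le_one (show 0 < ε / 4 by positivity)
  have hclose : ∀ t, |t| ≤ 1 → dist (φ t) (partialProduct (chr g t) y) ≤ ε / 4 := fun t ht => by
    rw [dist_eq_norm]
    exact le_of_tendsto ((hφ t).sub_const _).norm (hy t ht)
  obtain ⟨δ, hδ, hP⟩ := Metric.continuousAt_iff.1
    ((continuous_partialProduct_chr g y).continuousAt (x := (0 : ℝ))) (ε / 4) (by positivity)
  refine ⟨min δ 1, lt_min hδ one_pos, fun t ht => ?_⟩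
  have h1 := hclose t (by
    have := ht.trans_le (min_le_right δ 1)
    rw [Real.dist_eq, sub_zero] at this
    exact this.le)
  have h2 := hclose 0 (by simp)
  have h3 := hP (ht.trans_le (min_le_left δ 1))
  have := dist_triangle4 (φ t) (partialProduct (chr g t) y) (partialProduct (chr g 0) y) (φ 0)
  rw [dist_comm (partialProduct (chr g 0) y)] at this
  linarith

end FA.ErdosWintner
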