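import Fermat.Agent.ErdosWintner.Additive
import Fermat.Agent.Halasz.General
import Mathlib.Topology.Baire.CompleteMetrizable
import Mathlib.Topology.Baire.Lemmas
import Mathlib.Topology.Instances.RealVectorSpace

/-!
# Necessity: the twist is linear

If the means of `e ^ (i t g n)` do not tend to zero for small `t`, Halász's theorem gives `τ (t)`
with `∑ₚ (1 - cos (t g p - τ (t) log p)) / p` finite. It is additive, Baire makes it linear, and
averaging over `t` gives `∑ min (1, h p ²) / p < ∞` for `h = g - c log`.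
-/

set_option autoImplicit false

noncomputable section

namespace FA.ErdosWintner

open Finset Filter Topology

variable {g : ℕ → ℝ}

/-- The summand `(1 - cos (t g p - τ log p)) / p`. -/
def twistTerm (g : ℕ → ℝ) (p : ℕ) (t τ : ℝ) : ℝ :=
  (1 - Real.cos (t * g p - τ * Real.log p)) / p

theorem twistTerm_nonneg (g : ℕ → ℝ) (p : ℕ) (t τ : ℝ) : 0 ≤ twistTerm g p t τ :=
  div_nonneg (sub_nonneg.2 (Real.cos_le_one _)) (Nat.cast_nonneg p)

theorem one_sub_cos_add_le (a b : ℝ) :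
    1 - Real.cos (a + b) ≤ 2 * (1 - Real.cos a) + 2 * (1 - Real.cos b) := by
  have h : ‖unitExp (a + b) - 1‖ ≤ ‖unitExp a - 1‖ + ‖unitExp b - 1‖ := by
    rw [unitExp_add, show unitExp a * unitExp b - 1 =
      unitExp a * (unitExp b - 1) + (unitExp a - 1) by ring]
    refine (norm_add_le _ _).trans ?_
    rw [norm_mul, norm_unitExp, one_mul, add_comm]
  have h2 := pow_le_pow_left₀ (norm_nonneg _) h 2
  rw [sq_norm_unitExp_sub_one] at h2
  nlinarith [sq_norm_unitExp_sub_one a, sq_norm_unitExp_sub_one b,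
    two_mul_le_add_sq ‖unitExp a - 1‖ ‖unitExp b - 1‖]

theorem twistTerm_add_le (g : ℕ → ℝ) (p : ℕ) (t s τ σ : ℝ) :
    twistTerm g p (t + s) (τ + σ) ≤ 2 * twistTerm g p t τ + 2 * twistTerm g p s σ := by
  unfold twistTerm
  rw [← mul_div_assoc, ← mul_div_assoc, ← add_div,
    show (t + s) * g p - (τ + σ) * Real.log p =
      (t * g p - τ * Real.log p) + (s * g p - σ * Real.log p) by ring]
  exact div_le_div_of_nonneg_right (one_sub_cos_add_le _ _) (Nat.cast_nonneg p)

theorem twistTerm_neg (g : ℕ → ℝ) (p : ℕ) (t τ : ℝ) :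
    twistTerm g p (-t) (-τ) = twistTerm g p t τ := by
  rw [twistTerm, twistTerm, ← Real.cos_neg]
  ring_nf

theorem twistTerm_sub_le (g : ℕ → ℝ) (p : ℕ) (t s τ σ : ℝ) :
    twistTerm g p (t - s) (τ - σ) ≤ 2 * twistTerm g p t τ + 2 * twistTerm g p s σ := by
  rw [sub_eq_add_neg, sub_eq_add_neg, ← twistTerm_neg g p s σ]
  exact twistTerm_add_le g p t (-s) τ (-σ)

theorem twistTerm_two_mul_le (g : ℕ → ℝ) (p : ℕ) (t τ : ℝ) :
    twistTerm g p (2 * t) (2 * τ) ≤ 4 * twistTerm g p t τ := by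
  have := twistTerm_add_le g p t t τ τ
  rw [two_mul, two_mul]
  linarith

/-- `(t, τ)` has finite distance. -/
def Close (g : ℕ → ℝ) (t τ : ℝ) : Prop := Summable fun p : Nat.Primes => twistTerm g p t τ

theorem Close.add {t s τ σ : ℝ} (h1 : Close g t τ) (h2 : Close g s σ) :
    Close g (t + s) (τ + σ) :=
  ((h1.mul_left 2).add (h2.mul_left 2)).of_nonneg_of_le (fun p => twistTerm_nonneg g p _ _)
    fun p => twistTerm_add_le g p t s τ σ

theorem Close.sub {t s τ σ : ℝ} (h1 : Close g t τ) (h2 : Close g s σ) :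
    Close g (t - s) (τ - σ) :=
  ((h1.mul_left 2).add (h2.mul_left 2)).of_nonneg_of_le (fun p => twistTerm_nonneg g p _ _)
    fun p => twistTerm_sub_le g p t s τ σ

theorem Close.unique {t τ σ : ℝ} (h1 : Close g t τ) (h2 : Close g t σ) : τ = σ := by
  by_contra hne
  refine FA.Halasz.not_summable_one_sub_cos (sub_ne_zero.2 hne) ((h1.sub h2).congr fun p => ?_)
  rw [twistTerm, sub_self, zero_mul, zero_sub, Real.cos_neg]

theorem exists_close_small (hg : CoprimeAdditive g) {φ : ℝ → ℂ} (hφc : ContinuousAt φ 0)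
    (hφ0 : φ 0 = 1)
    (hφ : ∀ t, Tendsto (fun N : ℕ => (∑ n ∈ Icc 1 N, chr g t n) / N) atTop (𝓝 (φ t))) :
    ∃ δ > 0, ∀ t : ℝ, |t| < δ → ∃ τ, Close g t τ := by
  obtain ⟨δ, hδ, hb⟩ := Metric.continuousAt_iff.1 hφc 1 one_pos
  refine ⟨δ, hδ, fun t ht => ?_⟩
  by_contra! hc
  have hne : φ t ≠ 0 := fun h0 => by
    have := hb (x := t) (by rwa [Real.dist_eq, sub_zero])
    rw [h0, hφ0, dist_eq_norm, zero_sub, norm_neg, norm_one] at this
    exact lt_irrefl 1 this
  refine hne (tendsto_nhds_unique (hφ t) (FA.Halasz.tendsto_mean_zero (chr_one hg t)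
    (chr_mul hg t) (norm_chr_le g t) fun τ hS => hc τ (hS.congr fun p => ?_)))
  have hp : (0 : ℝ) < ((p : ℕ) : ℝ) := Nat.cast_pos.2 p.2.pos
  rw [twistTerm, chr, ← Complex.ofReal_natCast,
    Complex.cpow_def_of_ne_zero (Complex.ofReal_ne_zero.2 hp.ne'), ← Complex.ofReal_log hp.le,
    unitExp, ← Complex.exp_add,
    show ((t * g p : ℝ) : ℂ) * Complex.I + ((Real.log (p : ℕ) : ℝ) : ℂ) * (-(τ : ℂ) * Complex.I) =
      ((t * g p - τ * Real.log (p : ℕ) : ℝ) : ℂ) * Complex.I by push_cast; ring,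
    Complex.exp_ofReal_mul_I_re]

theorem exists_close (hg : CoprimeAdditive g) {φ : ℝ → ℂ} (hφc : ContinuousAt φ 0)
    (hφ0 : φ 0 = 1)
    (hφ : ∀ t, Tendsto (fun N : ℕ => (∑ n ∈ Icc 1 N, chr g t n) / N) atTop (𝓝 (φ t)))
    (t : ℝ) : ∃ τ, Close g t τ := by
  obtain ⟨δ, hδ, hsmall⟩ := exists_close_small hg hφc hφ0 hφ
  obtain ⟨k, hk⟩ := exists_nat_gt (|t| / δ)
  have hk0 : (0 : ℝ) < k + 1 := by positivity
  have hs : |t / (k + 1)| < δ := by
    rw [abs_div, abs_of_pos hk0, div_lt_iff₀ hk0]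
    rw [div_lt_iff₀ hδ] at hk
    nlinarith
  obtain ⟨τ, hτ⟩ := hsmall _ hs
  have : ∀ j : ℕ, ∃ σ, Close g ((j + 1) * (t / (k + 1))) σ := by
    intro j
    induction j with
    | zero => exact ⟨τ, by simpa using hτ⟩
    | succ j ih =>
      obtain ⟨σ, hσ⟩ := ih
      refine ⟨σ + τ, ?_⟩
      have h := hσ.add hτ
      rwa [show ((j + 1 : ℕ) + 1 : ℝ) * (t / (k + 1)) =
        (j + 1) * (t / (k + 1)) + t / (k + 1) by push_cast; ring]
  obtain ⟨σ, hσ⟩ := this k
  rw [mul_div_cancel₀ _ hk0.ne'] at hσ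
  exact ⟨σ, hσ⟩

/-- **The twist is linear and the twisted function has convergent weights.** -/
theorem exists_linear_twist (hg : CoprimeAdditive g) {φ : ℝ → ℂ} (hφc : ContinuousAt φ 0)
    (hφ0 : φ 0 = 1)
    (hφ : ∀ t, Tendsto (fun N : ℕ => (∑ n ∈ Icc 1 N, chr g t n) / N) atTop (𝓝 (φ t))) :
    ∃ c : ℝ, Summable fun p : Nat.Primes => weight (fun n => g n - c * Real.log n) p := by
  choose τ hτ using exists_close hg hφc hφ0 hφ
  set K : ℕ → Set ℝ := fun n => Prod.fst '' ((Set.Icc (-(n : ℝ)) n ×ˢ Set.Icc (-(n : ℝ)) n) ∩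
    {z : ℝ × ℝ | ∀ S : Finset Nat.Primes, ∑ p ∈ S, twistTerm g p z.1 z.2 ≤ n}) with hK
  have hclosed : ∀ n, IsClosed (K n) := by
    intro n
    refine ((IsCompact.inter_right (isCompact_Icc.prod isCompact_Icc) ?_).image
      continuous_fst).isClosed
    rw [Set.ofPred_forall]
    refine isClosed_iInter fun S => isClosed_le (continuous_finsetSum _ fun p _ => ?_)
      continuous_const
    unfold twistTerm
    fun_prop
  have hmem : ∀ n t, t ∈ K n → |τ t| ≤ n ∧ ∀ S : Finset Nat.Primes,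
      ∑ p ∈ S, twistTerm g p t (τ t) ≤ n := by
    rintro n _ ⟨⟨t, σ⟩, ⟨⟨-, hσ⟩, hS⟩, rfl⟩
    have e : τ t = σ :=
      (hτ t).unique (summable_of_sum_le (fun p => twistTerm_nonneg g p t σ) hS)
    dsimp only
    rw [e]
    exact ⟨abs_le.2 hσ, hS⟩
  have hunion : ⋃ n, K n = Set.univ := by
    refine Set.eq_univ_of_forall fun t => ?_
    obtain ⟨n, hn⟩ := exists_nat_ge (max |t| (max |τ t| (∑' p : Nat.Primes, twistTerm g p t (τ t))))
    simp only [max_le_iff] at hn
    refine Set.mem_iUnion.2 ⟨n, (t, τ t), ⟨⟨abs_le.1 hn.1, abs_le.1 hn.2.1⟩, fun S => ?_⟩, rfl⟩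
    exact ((hτ t).sum_le_tsum S fun p _ => twistTerm_nonneg g p _ _).trans hn.2.2
  obtain ⟨n, hn⟩ := nonempty_interior_of_iUnion_of_closed hclosed hunion
  obtain ⟨t₀, ht₀⟩ := hn
  obtain ⟨r, hr, hball⟩ := Metric.isOpen_iff.1 isOpen_interior t₀ ht₀
  have hadd : ∀ s t, τ (s + t) = τ s + τ t := fun s t =>
    (hτ (s + t)).unique ((hτ s).add (hτ t))
  set T : ℝ →+ ℝ := AddMonoidHom.mk' τ hadd with hT
  have hnear : ∀ u, |u| < r → |τ u| ≤ 2 * n ∧ ∀ S : Finset Nat.Primes,
      ∑ p ∈ S, twistTerm g p u (τ u) ≤ 4 * n := by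
    intro u hu
    obtain ⟨h1, h1'⟩ := hmem n t₀ (interior_subset ht₀)
    obtain ⟨h2, h2'⟩ := hmem n (t₀ + u)
      (interior_subset (hball (by simpa [Metric.mem_ball] using hu)))
    have e : τ u = τ (t₀ + u) - τ t₀ := by rw [hadd]; ring
    refine ⟨?_, fun S => ?_⟩
    · rw [e]
      have := abs_sub (τ (t₀ + u)) (τ t₀)
      linarith
    · refine le_trans (sum_le_sum (g := fun p : Nat.Primes =>
        2 * twistTerm g p (t₀ + u) (τ (t₀ + u)) + 2 * twistTerm g p t₀ (τ t₀)) fun p _ => ?_) ?_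
      · have := twistTerm_sub_le g p (t₀ + u) t₀ (τ (t₀ + u)) (τ t₀)
        rwa [add_sub_cancel_left, ← e] at this
      · rw [sum_add_distrib, ← mul_sum, ← mul_sum]
        linarith [h1' S, h2' S]
  have hTc : Continuous T := by
    refine continuous_of_continuousAt_zero T (Metric.continuousAt_iff.2 fun ε hε => ?_)
    obtain ⟨k, hk⟩ := exists_nat_gt ((2 * n : ℝ) / ε)
    have hk0 : (0 : ℝ) < k := lt_of_le_of_lt (by positivity) hk
    refine ⟨r / k, by positivity, fun x hx => ?_⟩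
    rw [Real.dist_eq, sub_zero, lt_div_iff₀ hk0] at hx
    rw [map_zero, Real.dist_eq, sub_zero]
    have h := (hnear (k • x) (by rw [nsmul_eq_mul, abs_mul, Nat.abs_cast, mul_comm]; exact hx)).1
    rw [show τ (k • x) = T (k • x) from rfl, map_nsmul, nsmul_eq_mul, abs_mul, Nat.abs_cast] at h
    rw [div_lt_iff₀ hε] at hk
    nlinarith [abs_nonneg (T x)]
  refine ⟨τ 1, ?_⟩
  have hlin : ∀ x : ℝ, τ x = x * τ 1 := fun x => by
    have := map_real_smul T hTc x 1
    rwa [smul_eq_mul, mul_one, smul_eq_mul] at this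
  set h : ℕ → ℝ := fun m => g m - τ 1 * Real.log m with hh
  have e : ∀ (p : ℕ) (u : ℝ), twistTerm g p u (τ u) = (1 - Real.cos (u * h p)) / p := fun p u => by
    rw [twistTerm, hlin u, hh]
    ring_nf
  obtain ⟨k, hk⟩ := exists_nat_gt (1 / r)
  have hk2 : 1 / r < 2 ^ k := hk.trans (by exact_mod_cast Nat.lt_two_pow_self)
  have hfour : ∀ (j : ℕ) (u : ℝ), |u| < r → ∀ S : Finset Nat.Primes,
      ∑ p ∈ S, twistTerm g p (2 ^ j * u) (τ (2 ^ j * u)) ≤ 4 ^ j * (4 * n) := by
    intro j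
    induction j with
    | zero => intro u hu S; simpa using (hnear u hu).2 S
    | succ j ih =>
      intro u hu S
      rw [pow_succ', mul_assoc, pow_succ', mul_assoc, hlin (2 * _), mul_assoc 2 (2 ^ j * u) (τ 1),
        ← hlin]
      refine (sum_le_sum (s := S) fun (p : Nat.Primes) _ =>
        twistTerm_two_mul_le g (p : ℕ) (2 ^ j * u) (τ (2 ^ j * u))).trans ?_
      rw [← mul_sum]
      exact mul_le_mul_of_nonneg_left (ih u hu S) (by norm_num)
  obtain ⟨κ, hκ, hker⟩ := exists_kernel_le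
  refine summable_of_sum_le (c := 4 ^ k * (4 * n) / κ) (fun p => weight_nonneg _ _) fun S => ?_
  rw [le_div_iff₀ hκ, sum_mul]
  calc ∑ p ∈ S, weight h p * κ
      ≤ ∑ p ∈ S, (∫ t in (0 : ℝ)..1, (1 - Real.cos (t * h p))) / ((p : ℕ) : ℝ) := by
        refine sum_le_sum fun p _ => ?_
        rw [weight, div_mul_eq_mul_div, mul_comm]
        exact div_le_div_of_nonneg_right (hker _) (Nat.cast_nonneg _)
    _ = ∫ t in (0 : ℝ)..1, ∑ p ∈ S, (1 - Real.cos (t * h p)) / ((p : ℕ) : ℝ) := by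
        rw [intervalIntegral.integral_finsetSum fun p _ =>
          (Continuous.intervalIntegrable (by fun_prop) _ _)]
        simp only [intervalIntegral.integral_div]
    _ ≤ ∫ _t in (0 : ℝ)..1, (4 : ℝ) ^ k * (4 * n) := by
        refine intervalIntegral.integral_mono_on (μ := MeasureTheory.volume) zero_le_one
          (Continuous.intervalIntegrable (by fun_prop) _ _) intervalIntegrable_const fun t ht => ?_
        have hu : |t / 2 ^ k| < r := by
          rw [abs_div, abs_of_nonneg ht.1, abs_of_pos (by positivity), div_lt_iff₀ (by positivity)]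
          rw [div_lt_iff₀ hr] at hk2
          linarith [ht.2]
        have := hfour k _ hu S
        rw [mul_div_cancel₀ _ (by positivity)] at this
        simpa only [e] using this
    _ = 4 ^ k * (4 * n) := by simp

end FA.ErdosWintner
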